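/-
S44, block X, sub-block COVER, node TW (helper88): the Atkin-Lehner involution `w = W_p` of
`FN (M p)` commutes with the multiplicative Hecke operators `T_ℓ`, `ℓ ∤ M p`.

Proof.  `T_ℓ = Norm_α ∘ β` with `α, β : FN (M p) → FN (M p ℓ)`.  The Atkin-Lehner involution `W_p` at
level `(M ℓ) p = M p ℓ` is an automorphism `w'` with `w' ∘ α = α ∘ w` and `w' ∘ β = β ∘ w` (check on
the generators `α_p (FN M)`, `β_p (FN M)` of `FN (M p)`).  The norm is equivariant.
-/
import Fermat.Agent.C1.Mod.Main
import Fermat.Agent.GAL.E.Exists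
import Fermat.Agent.GAL.E.Cusps.Levels

set_option autoImplicit false

noncomputable section

namespace Fermat.Agent.S44.X.Cover

open ModularCurve AlgebraicCurve Fermat.Agent.S24 Fermat.Agent.S24.B Fermat.Agent.GAL
  Fermat.Agent.GAL.E

namespace TW

/-- equivariance of the norm under a pair of compatible automorphisms -/
theorem norm_equivariant {F E : Type*} [Field F] [Field E] (a : F →+* E) (e₁ : F ≃+* F)
    (e₂ : E ≃+* E) (h : ∀ x, e₂ (a x) = a (e₁ x)) (y : E) :
    e₁ (@Algebra.norm F E _ _ a.toAlgebra y) = @Algebra.norm F E _ _ a.toAlgebra (e₂ y) := by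
  have key := @Algebra.norm_eq_of_equiv_equiv F E F E _ _ _ _ a.toAlgebra a.toAlgebra e₁ e₂ (by
      ext x
      exact (h x).symm) y
  rw [key, RingEquiv.apply_symm_apply]

variable (M p l : ℕ) [NeZero M] [NeZero p] [NeZero l]

theorem level_eq : M * p * l = M * l * p := by ring

/-- the involution of `FN (M p ℓ)` deduced from `W_p` at level `(M ℓ) p` -/
def lift (D' : C1.ALData (M * l) p) : FN (M * p * l) →ₐ[Kbar] FN (M * p * l) :=
  ((levelCast (level_eq M p l).symm).toAlgHom.comp D'.w).comp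
    (levelCast (level_eq M p l)).toAlgHom

variable {M p l}

theorem lift_apply (D' : C1.ALData (M * l) p) (y : FN (M * p * l)) :
    lift M p l D' y = levelCast (level_eq M p l).symm (D'.w (levelCast (level_eq M p l) y)) := rfl

theorem lift_of_al (D' : C1.ALData (M * l) p) (y : FN (M * p * l)) (z : FN (M * l))
    (h : (y : LaurentSeries Kbar) = (z : LaurentSeries Kbar)) :
    ((lift M p l D' y : FN (M * p * l)) : LaurentSeries Kbar) =
      qExpand Kbar p (z : LaurentSeries Kbar) := by
  have e : levelCast (level_eq M p l) y = heckeAlphaBar Kbar (M * l) p z :=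
    Subtype.ext (by rw [coe_levelCast, coe_heckeAlphaBar, h])
  rw [lift_apply, coe_levelCast, e, D'.w_al, coe_heckeBetaBar]

theorem lift_of_be (D' : C1.ALData (M * l) p) (y : FN (M * p * l)) (z : FN (M * l))
    (h : (y : LaurentSeries Kbar) = qExpand Kbar p (z : LaurentSeries Kbar)) :
    ((lift M p l D' y : FN (M * p * l)) : LaurentSeries Kbar) = (z : LaurentSeries Kbar) := by
  have e : levelCast (level_eq M p l) y = heckeBetaBar Kbar (M * l) p z :=
    Subtype.ext (by rw [coe_levelCast, coe_heckeBetaBar, h])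
  rw [lift_apply, coe_levelCast, e, D'.w_be, coe_heckeAlphaBar]

theorem lift_lift (hp : p.Prime) (D' : C1.ALData (M * l) p) (y : FN (M * p * l)) :
    lift M p l D' (lift M p l D' y) = y := by
  have h1 : ∀ z : FN (M * l * p), levelCast (level_eq M p l)
      (levelCast (level_eq M p l).symm z) = z := fun z =>
    Subtype.ext (by rw [coe_levelCast, coe_levelCast])
  rw [lift_apply, lift_apply, h1, D'.w_w hp]
  exact Subtype.ext (by rw [coe_levelCast, coe_levelCast])

/-- `w' ∘ α_ℓ = α_ℓ ∘ w` -/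
theorem lift_al (hp : p.Prime) (D : C1.ALData M p) (D' : C1.ALData (M * l) p) (x : FN (M * p)) :
    lift M p l D' (heckeAlphaBar Kbar (M * p) l x) = heckeAlphaBar Kbar (M * p) l (D.w x) := by
  refine C1.FN_mul_induction hp (P := fun x => lift M p l D' (heckeAlphaBar Kbar (M * p) l x) =
    heckeAlphaBar Kbar (M * p) l (D.w x)) ?_ ?_ ?_ ?_ ?_ ?_ x
  · intro z
    apply Subtype.ext
    rw [lift_of_al D' _ (heckeAlphaBar Kbar M l z) (by simp only [coe_heckeAlphaBar]), D.w_al]
    simp only [coe_heckeAlphaBar, coe_heckeBetaBar]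
  · intro z
    apply Subtype.ext
    rw [lift_of_be D' _ (heckeAlphaBar Kbar M l z)
      (by simp only [coe_heckeAlphaBar, coe_heckeBetaBar]), D.w_be]
    simp only [coe_heckeAlphaBar]
  · intro f g hf hg; simp only [map_add, hf, hg]
  · intro f hf; simp only [map_neg, hf]
  · intro f g hf hg; simp only [map_mul, hf, hg]
  · intro f hf; simp only [map_inv₀, hf]

/-- `w' ∘ β_ℓ = β_ℓ ∘ w` -/
theorem lift_be (hp : p.Prime) (D : C1.ALData M p) (D' : C1.ALData (M * l) p) (x : FN (M * p)) :
    lift M p l D' (heckeBetaBar Kbar (M * p) l x) = heckeBetaBar Kbar (M * p) l (D.w x) := by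
  refine C1.FN_mul_induction hp (P := fun x => lift M p l D' (heckeBetaBar Kbar (M * p) l x) =
    heckeBetaBar Kbar (M * p) l (D.w x)) ?_ ?_ ?_ ?_ ?_ ?_ x
  · intro z
    apply Subtype.ext
    rw [lift_of_al D' _ (heckeBetaBar Kbar M l z)
      (by simp only [coe_heckeAlphaBar, coe_heckeBetaBar]), D.w_al]
    simp only [coe_heckeBetaBar]
    rw [HeckeComm.qExpand_qExpand, HeckeComm.qExpand_qExpand,
      HeckeComm.qExpand_congr (mul_comm p l)]
  · intro z
    apply Subtype.ext
    rw [lift_of_be D' _ (heckeBetaBar Kbar M l z) (by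
      simp only [coe_heckeBetaBar]
      rw [HeckeComm.qExpand_qExpand, HeckeComm.qExpand_qExpand,
        HeckeComm.qExpand_congr (mul_comm p l)]), D.w_be]
    simp only [coe_heckeAlphaBar, coe_heckeBetaBar]
  · intro f g hf hg; simp only [map_add, hf, hg]
  · intro f hf; simp only [map_neg, hf]
  · intro f g hf hg; simp only [map_mul, hf, hg]
  · intro f hf; simp only [map_inv₀, hf]

end TW

/-- **The Atkin-Lehner involution `W_p` commutes with `heckeF = T_ℓ`** (`p ≠ ℓ`, `p ∤ M`). -/
theorem w_heckeF {M p l : ℕ} [NeZero M] [NeZero p] [NeZero l] (hp : p.Prime) (hpM : ¬ p ∣ M)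
    (hl : l.Prime) (hlp : l ≠ p) (D : C1.ALData M p) (u : FN (M * p)) :
    D.w (heckeF (M * p) l u) = heckeF (M * p) l (D.w u) := by
  have hpMl : ¬ p ∣ M * l := by
    intro h
    rcases (Nat.Prime.dvd_mul hp).1 h with h | h
    · exact hpM h
    · exact hlp ((Nat.prime_dvd_prime_iff_eq hp hl).1 h).symm
  obtain ⟨D'⟩ := C1.nonempty_alData (M * l) p hp hpMl
  let e₁ : FN (M * p) ≃+* FN (M * p) :=
    RingEquiv.ofRingHom D.w.toRingHom D.w.toRingHom (RingHom.ext fun x => D.w_w hp x)
      (RingHom.ext fun x => D.w_w hp x)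
  let e₂ : FN (M * p * l) ≃+* FN (M * p * l) :=
    RingEquiv.ofRingHom (TW.lift M p l D').toRingHom (TW.lift M p l D').toRingHom
      (RingHom.ext fun x => TW.lift_lift hp D' x) (RingHom.ext fun x => TW.lift_lift hp D' x)
  have key := TW.norm_equivariant (heckeAlphaBar Kbar (M * p) l).toRingHom e₁ e₂
    (fun x => TW.lift_al hp D D' x) (heckeBetaBar Kbar (M * p) l u)
  rw [QExp.heckeF_apply, QExp.heckeF_apply, ← TW.lift_be hp D D' u]
  exact key

/-- **`T w = w T`**: the Atkin-Lehner involution `W_p` of `FN (M p)` commutes with every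
multiplicative Hecke operator `T_ℓ`, `ℓ ∤ M p`. -/
theorem w_T {M p l : ℕ} [NeZero M] [NeZero p] [NeZero l] (hp : p.Prime) (hpM : ¬ p ∣ M)
    (hl : l.Prime) (hlN : ¬ l ∣ M * p) (D : C1.ALData M p) (H : HeckeOp (M * p) l)
    (u : FN (M * p)) : D.w (H.T u) = H.T (D.w u) := by
  have hlp : l ≠ p := fun h => hlN (h ▸ dvd_mul_left l M)
  rw [H.T_eq_heckeF hl hlN]
  exact w_heckeF hp hpM hl hlp D u

end Fermat.Agent.S44.X.Cover

end
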