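/-
S44, block X, sub-block COVER, node TW (helper88): `NodeTW` of `Cover/Inst.lean`.
-/
import Fermat.Agent.S44.X.Cover.Inst
import Fermat.Agent.S44.X.Cover.TW.Main

set_option autoImplicit false

namespace Fermat.Agent.S44.X.Cover

/-- **Node TW**: `T_ℓ` commutes with the Atkin-Lehner involution `w_q`. -/
theorem nodeTW : NodeTW := fun _ _ _ _ _ _ hq hqM hl hlN D H u => w_T hq hqM hl hlN D H u

end Fermat.Agent.S44.X.Cover
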